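import Fermat.Agent.Monogenic.Dedekind

/-!
# Żyliński's theorem: common index divisors are smaller than the degree

There are at least `p / f` monic irreducible polynomials of degree `f` over `𝔽_p` and at most
`[K : ℚ] / f` primes of norm `p ^ f`.
-/

set_option autoImplicit false

noncomputable section

open NumberField Polynomial IntermediateField

namespace FA.Monogenic

variable {K : Type*} [Field K] [NumberField K] {p : ℕ} [Fact p.Prime]

theorem mul_ncard_primesDeg_le (f : ℕ) :
    f * (primesDeg K p f).ncard ≤ Module.finrank ℚ K := by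
  classical
  have hp : p.Prime := Fact.out
  set T := (finite_primesDeg (K := K) hp f).toFinset
  have hT : ∀ {P}, P ∈ T ↔ P ∈ primesDeg K p f := fun {P} => Set.Finite.mem_toFinset _
  have hle : Ideal.span {(p : 𝓞 K)} ≤ ∏ P ∈ T, P ^ 1 := by
    rw [← IsDedekindDomain.inf_pow_eq_prod_of_prime T (fun P => P) (fun _ => 1)
      (fun P hP => Ideal.prime_of_isPrime (ne_bot_of_mem hp (natCast_mem_of_deg hp (hT.1 hP)))
        (hT.1 hP).1) (fun _ _ _ _ hne => hne)]
    refine Finset.le_inf fun P hP => ?_
    rw [pow_one]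
    exact (Ideal.span_singleton_le_iff_mem P).2 (natCast_mem_of_deg hp (hT.1 hP))
  have h := Ideal.absNorm_dvd_absNorm_of_le hle
  simp only [pow_one] at h
  rw [map_prod, Finset.prod_congr rfl fun P hP => (hT.1 hP).2, Finset.prod_const, ← pow_mul,
    Ideal.absNorm_span_singleton, ← map_natCast (algebraMap ℤ (𝓞 K)), Algebra.norm_algebraMap,
    Int.natAbs_pow, Int.natAbs_natCast, Nat.pow_dvd_pow_iff_le_right hp.one_lt,
    RingOfIntegers.rank] at h
  rwa [Set.ncard_eq_toFinset_card _ (finite_primesDeg (K := K) hp f)]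

/-- At least `p / f` irreducible polynomials of degree `f`. -/
theorem le_mul_ncard_irredDeg {f : ℕ} (hf : f ≠ 0) : p ≤ f * (irredDeg p f).ncard := by
  classical
  let F := GaloisField p f
  obtain ⟨γ, hγ⟩ := Field.exists_primitive_element (ZMod p) F
  have hprim : ∀ c : ZMod p, (ZMod p)⟮γ + algebraMap (ZMod p) F c⟯ = ⊤ := fun c => by
    refine top_le_iff.1 (hγ ▸ adjoin_simple_le_iff.2 ?_)
    have h := sub_mem (mem_adjoin_simple_self (ZMod p) (γ + algebraMap (ZMod p) F c))
      ((ZMod p)⟮γ + algebraMap (ZMod p) F c⟯.algebraMap_mem c)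
    rwa [add_sub_cancel_right] at h
  let ψ : ZMod p → irredDeg p f := fun c =>
    ⟨minpoly (ZMod p) (γ + algebraMap (ZMod p) F c), minpoly.monic (IsIntegral.of_finite _ _),
      minpoly.irreducible (IsIntegral.of_finite _ _), by
        rw [← adjoin.finrank (IsIntegral.of_finite _ _), hprim c, finrank_top',
          GaloisField.finrank p hf]⟩
  have := (finite_irredDeg (p := p) f).fintype
  have h := Finset.card_le_mul_card_image (f := ψ) (Finset.univ : Finset (ZMod p)) f fun g _ => by
    refine le_trans ?_ ((Polynomial.card_roots' (g.1.map (algebraMap (ZMod p) F))).trans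
      (by rw [natDegree_map, g.2.2.2]))
    refine le_trans ?_ (Multiset.toFinset_card_le _)
    refine Finset.card_le_card_of_injOn (fun c => γ + algebraMap (ZMod p) F c) (fun c hc => ?_)
      fun a _ b _ hab => (algebraMap (ZMod p) F).injective (add_left_cancel hab)
    have hc' : (ψ c).1 = g.1 := congrArg Subtype.val (Finset.mem_filter.1 hc).2
    simp only [Finset.mem_coe, Multiset.mem_toFinset]
    rw [mem_roots (map_monic_ne_zero g.2.1), IsRoot, eval_map, ← aeval_def, ← hc']
    exact minpoly.aeval _ _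
  rw [Finset.card_univ, ZMod.card] at h
  refine h.trans (Nat.mul_le_mul_left f ?_)
  rw [← Nat.card_coe_set_eq, Nat.card_eq_fintype_card]
  exact Finset.card_le_univ _

theorem ncard_irredDeg_one_le : (irredDeg p 1).ncard ≤ p := by
  have h := Set.ncard_le_ncard_of_injOn (s := irredDeg p 1) (t := (Set.univ : Set (ZMod p)))
    (fun g => g.coeff 0) (fun _ _ => trivial) (fun a ha b hb hab => ?_) (Set.toFinite _)
  · rwa [Set.ncard_univ, Nat.card_zmod] at h
  · rw [eq_X_add_C_of_natDegree_le_one ha.2.2.le, eq_X_add_C_of_natDegree_le_one hb.2.2.le]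
    have h1 : ∀ g ∈ irredDeg p 1, g.coeff 1 = 1 := fun g hg => by
      have := hg.1.coeff_natDegree
      rwa [hg.2.2] at this
    rw [h1 a ha, h1 b hb, show a.coeff 0 = b.coeff 0 from hab]

/-- **Żyliński**: a common index divisor is smaller than the degree. -/
theorem lt_finrank_of_forall_dvd
    (h : ∀ θ : 𝓞 K, p ∣ (Algebra.adjoin ℤ {θ}).toSubring.toAddSubgroup.index) :
    p < Module.finrank ℚ K := by
  obtain ⟨f, hf⟩ := forall_dvd_index_iff.1 h
  by_contra hle
  have h1 := mul_ncard_primesDeg_le (K := K) (p := p) f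
  rcases Nat.eq_zero_or_pos f with rfl | hpos
  · have he : primesDeg K p 0 = ∅ := Set.eq_empty_of_forall_notMem fun P hP =>
      lt_irrefl 0 (pos_of_deg Fact.out hP)
    rw [he, Set.ncard_empty] at hf
    exact Nat.not_lt_zero _ hf
  · have h2 := le_mul_ncard_irredDeg (p := p) (f := f) hpos.ne'
    have h3 : f * (irredDeg p f).ncard < f * (primesDeg K p f).ncard := Nat.mul_lt_mul_of_pos_left hf hpos
    omega

/-- **More than `p` primes of norm `p`.** -/
theorem forall_dvd_index_of_split (h : p < (primesDeg K p 1).ncard) (θ : 𝓞 K) :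
    p ∣ (Algebra.adjoin ℤ {θ}).toSubring.toAddSubgroup.index :=
  forall_dvd_index_iff.2 ⟨1, ncard_irredDeg_one_le.trans_lt h⟩ θ

omit [NumberField K] [Fact p.Prime] in
theorem index_eq_one_of_adjoin_eq_top {θ : 𝓞 K} (h : Algebra.adjoin ℤ {θ} = ⊤) :
    (Algebra.adjoin ℤ {θ}).toSubring.toAddSubgroup.index = 1 := by
  rw [AddSubgroup.index_eq_one, eq_top_iff]
  intro x _
  show x ∈ Algebra.adjoin ℤ {θ}
  rw [h]
  trivial

end FA.Monogenic
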