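import Fermat.Agent.Monogenic.Residue

/-!
# The theorem of Dedekind and Hensel on common index divisors

A prime `p` divides every index of `ℤ[θ]` iff for some `f` there are more primes over `p` of norm
`p ^ f` than monic irreducible polynomials of degree `f` over `𝔽_p`.
-/

set_option autoImplicit false

noncomputable section

open NumberField Polynomial

namespace FA.Monogenic

variable (K : Type*) [Field K] [NumberField K] (p : ℕ)

/-- The primes of norm `p ^ f`. -/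
def primesDeg (f : ℕ) : Set (Ideal (𝓞 K)) := {P | P.IsPrime ∧ Ideal.absNorm P = p ^ f}

/-- The monic irreducible polynomials of degree `f`. -/
def irredDeg (f : ℕ) : Set (ZMod p)[X] := {g | g.Monic ∧ Irreducible g ∧ g.natDegree = f}

variable {K p}

theorem finite_irredDeg [Fact p.Prime] (f : ℕ) : (irredDeg p f).Finite := by
  refine Set.Finite.of_finite_image (f := fun g (i : Fin (f + 1)) => g.coeff i) (Set.toFinite _) ?_
  intro g hg g' hg' he
  refine Polynomial.ext fun i => ?_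
  by_cases hi : i < f + 1
  · exact congrFun he ⟨i, hi⟩
  · rw [coeff_eq_zero_of_natDegree_lt (by rw [hg.2.2]; omega),
      coeff_eq_zero_of_natDegree_lt (by rw [hg'.2.2]; omega)]

theorem finite_primesDeg (hp : p.Prime) (f : ℕ) : (primesDeg K p f).Finite :=
  (Ideal.finite_setOf_absNorm_eq (S := 𝓞 K) (p ^ f)).subset fun _ h => h.2

theorem natCast_mem_of_deg (hp : p.Prime) {f : ℕ} {P : Ideal (𝓞 K)} (h : P ∈ primesDeg K p f) :
    (p : 𝓞 K) ∈ P := by
  obtain ⟨hP, hn⟩ := h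
  have h1 := Ideal.absNorm_mem P
  rw [hn, Nat.cast_pow] at h1
  exact hP.mem_of_pow_mem _ h1

theorem pos_of_deg (hp : p.Prime) {f : ℕ} {P : Ideal (𝓞 K)} (h : P ∈ primesDeg K p f) : 0 < f := by
  refine Nat.pos_of_ne_zero fun h0 => h.1.ne_top (Ideal.absNorm_eq_one_iff.1 ?_)
  rw [h.2, h0, pow_zero]

theorem exists_deg (hp : p.Prime) {P : Ideal (𝓞 K)} (hP : P.IsPrime) (h : (p : 𝓞 K) ∈ P) :
    ∃ f, P ∈ primesDeg K p f := by
  have hle : Ideal.span {(p : 𝓞 K)} ≤ P := (Ideal.span_singleton_le_iff_mem P).2 h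
  have hd := Ideal.absNorm_dvd_absNorm_of_le hle
  have hn : Ideal.absNorm (Ideal.span {(p : 𝓞 K)}) = p ^ Module.finrank ℤ (𝓞 K) := by
    rw [Ideal.absNorm_span_singleton, ← map_natCast (algebraMap ℤ (𝓞 K)), Algebra.norm_algebraMap,
      Int.natAbs_pow, Int.natAbs_natCast]
  rw [hn, Nat.dvd_prime_pow hp] at hd
  obtain ⟨f, -, hf⟩ := hd
  exact ⟨f, hP, hf⟩

theorem ne_bot_of_mem (hp : p.Prime) {P : Ideal (𝓞 K)} (h : (p : 𝓞 K) ∈ P) : P ≠ ⊥ := fun h0 => by
  rw [h0, Ideal.mem_bot, Nat.cast_eq_zero] at h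
  exact hp.ne_zero h

variable [Fact p.Prime]

/-- The kernel of a surjective evaluation at a prime. -/
theorem exists_irred {f : ℕ} {P : Ideal (𝓞 K)} (hP : P ∈ primesDeg K p f) (h : (p : 𝓞 K) ∈ P)
    {θ : 𝓞 K} (hs : Function.Surjective (evMod P h θ)) :
    ∃ g ∈ irredDeg p f, RingHom.ker (evMod P h θ) = Ideal.span {g} := by
  have hp : p.Prime := Fact.out
  have : P.IsMaximal := hP.1.isMaximal (ne_bot_of_mem hp h)
  let : Field (𝓞 K ⧸ P) := Ideal.Quotient.field P
  have hmax : (RingHom.ker (evMod P h θ)).IsMaximal := RingHom.ker_isMaximal_of_surjective _ hs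
  obtain ⟨g₀, hg₀⟩ := (IsPrincipalIdealRing.principal (RingHom.ker (evMod P h θ))).principal
  have hg₀' : RingHom.ker (evMod P h θ) = Ideal.span {g₀} := hg₀
  have hne : g₀ ≠ 0 := fun h0 => by
    rw [h0, Ideal.span_singleton_eq_bot.2 rfl] at hg₀'
    rw [hg₀'] at hmax
    have hX : Ideal.span {(X : (ZMod p)[X])} ≠ ⊤ := fun e =>
      not_isUnit_X (Ideal.span_singleton_eq_top.1 e)
    exact X_ne_zero (Ideal.span_singleton_eq_bot.1 (hmax.eq_of_le hX bot_le).symm)
  set g := normalize g₀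
  have hg : RingHom.ker (evMod P h θ) = Ideal.span {g} := by
    rw [hg₀', Ideal.span_singleton_eq_span_singleton]
    exact (normalize_associated g₀).symm
  have hirr : Irreducible g := by
    rw [hg] at hmax
    exact ((Ideal.span_singleton_prime (by simpa [g] using hne)).1 hmax.isPrime).irreducible
  have hmon : g.Monic := monic_normalize hne
  refine ⟨g, ⟨hmon, hirr, ?_⟩, hg⟩
  have e : (ZMod p)[X] ⧸ RingHom.ker (evMod P h θ) ≃+* 𝓞 K ⧸ P :=
    RingHom.quotientKerEquivOfSurjective hs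
  have hc : Nat.card ((ZMod p)[X] ⧸ Ideal.span {g}) = p ^ g.natDegree := by
    show Nat.card (AdjoinRoot g) = _
    rw [Nat.card_congr (AdjoinRoot.powerBasis' hmon).basis.equivFun.toEquiv, Nat.card_pi]
    simp
  rw [hg] at e
  rw [Nat.card_congr e.toEquiv, ← Submodule.cardQuot_apply, ← Ideal.absNorm_apply, hP.2] at hc
  exact (Nat.pow_right_injective hp.two_le hc).symm

/-- **Forward**: a covering `θ` bounds the primes of each degree. -/
theorem ncard_le_of_covers {θ : 𝓞 K} (hc : Covers (Ideal.span {(p : 𝓞 K)}) θ) (f : ℕ) :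
    (primesDeg K p f).ncard ≤ (irredDeg p f).ncard := by
  have hp : p.Prime := Fact.out
  classical
  have hex : ∀ P : primesDeg K p f, ∃ g ∈ irredDeg p f,
      RingHom.ker (evMod P.1 (natCast_mem_of_deg hp P.2) θ) = Ideal.span {g} := fun P =>
    exists_irred P.2 _ ((hc.mono ((Ideal.span_singleton_le_iff_mem _).2
      (natCast_mem_of_deg hp P.2))).surjective)
  choose g hg hker using hex
  have := (finite_irredDeg (p := p) f).to_subtype
  rw [← Nat.card_coe_set_eq, ← Nat.card_coe_set_eq]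
  refine Nat.card_le_card_of_injective (fun P => (⟨g P, hg P⟩ : irredDeg p f)) fun P Q hPQ => ?_
  have hk : g P = g Q := congrArg Subtype.val hPQ
  refine Subtype.ext (le_antisymm ?_ ?_)
  all_goals
    intro x hx
    obtain ⟨F, hF⟩ := hc x
    have hFP : x - aeval θ F ∈ P.1 :=
      (Ideal.span_singleton_le_iff_mem _).2 (natCast_mem_of_deg hp P.2) hF
    have hFQ : x - aeval θ F ∈ Q.1 :=
      (Ideal.span_singleton_le_iff_mem _).2 (natCast_mem_of_deg hp Q.2) hF
    have hiff : aeval θ F ∈ P.1 ↔ aeval θ F ∈ Q.1 := by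
      rw [← Ideal.Quotient.eq_zero_iff_mem, ← Ideal.Quotient.eq_zero_iff_mem,
        ← evMod_map P.1 (natCast_mem_of_deg hp P.2), ← evMod_map Q.1 (natCast_mem_of_deg hp Q.2),
        ← RingHom.mem_ker, ← RingHom.mem_ker, hker, hker, hk]
  · rw [← sub_add_cancel x (aeval θ F)]
    exact add_mem hFQ (hiff.1 ((Submodule.sub_mem_iff_right _ hx).1 hFP))
  · rw [← sub_add_cancel x (aeval θ F)]
    exact add_mem hFP (hiff.2 ((Submodule.sub_mem_iff_right _ hx).1 hFQ))

/-- A root of any irreducible polynomial of the residue degree, with a value of order one. -/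
theorem exists_local {f : ℕ} {P : Ideal (𝓞 K)} (hP : P ∈ primesDeg K p f) {g : (ZMod p)[X]}
    (hg : g ∈ irredDeg p f) {G : ℤ[X]} (hG : G.map (Int.castRingHom (ZMod p)) = g)
    (h : (p : 𝓞 K) ∈ P) :
    ∃ a : 𝓞 K, Function.Surjective (evMod P h a) ∧ evMod P h a g = 0 ∧ aeval a G ∉ P ^ 2 := by
  classical
  have hp : p.Prime := Fact.out
  have : P.IsMaximal := hP.1.isMaximal (ne_bot_of_mem hp h)
  let : Field (𝓞 K ⧸ P) := Ideal.Quotient.field P
  have : Fact (Irreducible g) := ⟨hg.2.1⟩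
  have hcardP : Nat.card (𝓞 K ⧸ P) = p ^ f := by
    rw [← Submodule.cardQuot_apply, ← Ideal.absNorm_apply, hP.2]
  have hcardR : Nat.card (AdjoinRoot g) = p ^ f := by
    rw [Nat.card_congr (AdjoinRoot.powerBasis' hg.1).basis.equivFun.toEquiv, Nat.card_pi]
    simp [hg.2.2]
  have : Finite (AdjoinRoot g) := Nat.finite_of_card_ne_zero (hcardR ▸ pow_ne_zero _ hp.ne_zero)
  have : Finite (𝓞 K ⧸ P) := Nat.finite_of_card_ne_zero (hcardP ▸ pow_ne_zero _ hp.ne_zero)
  let := Fintype.ofFinite (AdjoinRoot g)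
  let := Fintype.ofFinite (𝓞 K ⧸ P)
  let e : AdjoinRoot g ≃+* 𝓞 K ⧸ P := FiniteField.ringEquivOfCardEq
    (K := AdjoinRoot g) (K' := 𝓞 K ⧸ P)
    (by rw [← Nat.card_eq_fintype_card, ← Nat.card_eq_fintype_card, hcardR, hcardP])
  have heq : ∀ a : 𝓞 K, Ideal.Quotient.mk P a = e (AdjoinRoot.root g) →
      ∀ r, evMod P h a r = e (AdjoinRoot.mk g r) := fun a ha r => by
    refine DFunLike.congr_fun (Polynomial.ringHom_ext' (f := evMod P h a)
      (g := e.toRingHom.comp (AdjoinRoot.mk g)) (Subsingleton.elim _ _) ?_) r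
    simp [evMod, ha]
  obtain ⟨a, ha⟩ := Ideal.Quotient.mk_surjective (e (AdjoinRoot.root g))
  have hgood : ∀ a : 𝓞 K, Ideal.Quotient.mk P a = e (AdjoinRoot.root g) →
      Function.Surjective (evMod P h a) ∧ evMod P h a g = 0 := fun a ha => by
    refine ⟨fun y => ?_, by rw [heq a ha, AdjoinRoot.mk_self, map_zero]⟩
    obtain ⟨r, hr⟩ := AdjoinRoot.mk_surjective (e.symm y)
    exact ⟨r, by rw [heq a ha, hr, RingEquiv.apply_symm_apply]⟩
  by_cases hsq : aeval a G ∉ P ^ 2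
  · exact ⟨a, (hgood a ha).1, (hgood a ha).2, hsq⟩
  rw [not_not] at hsq
  obtain ⟨π, hπ, hπ2⟩ := SetLike.exists_of_lt
    ((pow_two P).symm ▸ (Ideal.pow_succ_lt_pow (ne_bot_of_mem hp h) 1) :
      P * P < P ^ 1)
  rw [pow_one] at hπ
  rw [← pow_two] at hπ2
  have hd : aeval a (derivative G) ∉ P := fun hd => by
    have h1 : evMod P h a (derivative g) = 0 := by
      rw [← hG, derivative_map, evMod_map]
      exact Ideal.Quotient.eq_zero_iff_mem.2 hd
    obtain ⟨u, v, huv⟩ := PerfectField.separable_of_irreducible hg.2.1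
    have h2 := congrArg (evMod P h a) huv
    rw [map_add, map_mul, map_mul, h1, (hgood a ha).2, map_one, mul_zero, mul_zero, add_zero] at h2
    exact zero_ne_one h2
  have haπ : Ideal.Quotient.mk P (a + π) = e (AdjoinRoot.root g) := by
    rw [map_add, Ideal.Quotient.eq_zero_iff_mem.2 hπ, add_zero, ha]
  refine ⟨a + π, (hgood _ haπ).1, (hgood _ haπ).2, fun hm => ?_⟩
  obtain ⟨k, hk⟩ := Polynomial.binomExpansion (G.map (algebraMap ℤ (𝓞 K))) a π
  simp only [derivative_map, eval_map_algebraMap] at hk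
  have h3 : aeval a (derivative G) * π ∈ P ^ 2 := by
    have h4 : k * π ^ 2 ∈ P ^ 2 := Ideal.mul_mem_left _ _ (Ideal.pow_mem_pow hπ 2)
    have : aeval a (derivative G) * π = aeval (a + π) G - aeval a G - k * π ^ 2 := by
      rw [hk]; ring
    rw [this]
    exact sub_mem (sub_mem hm hsq) h4
  rw [mul_comm] at h3
  exact hd (Ideal.mem_prime_of_mul_mem_pow (ne_bot_of_mem hp h) (i := 1) hπ2 h3)

/-- Powers of a prime are covered. -/
theorem covers_pow {P : Ideal (𝓞 K)} (h : (p : 𝓞 K) ∈ P) [hP : P.IsPrime] {θ : 𝓞 K} {G : ℤ[X]}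
    (hs : Function.Surjective (evMod P h θ)) (hG1 : aeval θ G ∈ P) (hG2 : aeval θ G ∉ P ^ 2) :
    ∀ k, Covers (P ^ k) θ := by
  have hp : p.Prime := Fact.out
  have hP0 := ne_bot_of_mem hp h
  have h1 : Covers P θ := fun x => by
    obtain ⟨r, hr⟩ := hs (Ideal.Quotient.mk P x)
    obtain ⟨R, rfl⟩ := exists_lift r
    rw [evMod_map] at hr
    exact ⟨R, Ideal.Quotient.eq.1 hr.symm⟩
  have hpow : ∀ k, aeval θ G ^ k ∈ P ^ k ∧ aeval θ G ^ k ∉ P ^ (k + 1) := fun k => by
    induction k with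
    | zero => exact ⟨by simp, fun hh => hP.ne_top ((Ideal.eq_top_iff_one _).2 (by simpa using hh))⟩
    | succ k ih =>
      refine ⟨Ideal.pow_mem_pow hG1 _, fun hh => hG2 ?_⟩
      have hk : aeval θ G ^ k * aeval θ G ∈ P ^ ((k + 1) + 1) := by rw [← pow_succ]; exact hh
      by_contra hne
      have h2 : aeval θ G ^ k ∈ P ^ (k + 1) := by
        rw [mul_comm] at hk
        have h3 : Ideal.span {aeval θ G} * Ideal.span {aeval θ G ^ k} ≤ P ^ (k + 1 + 1) := by
          rw [Ideal.span_singleton_mul_span_singleton, Ideal.span_singleton_le_iff_mem]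
          exact hk
        obtain ⟨J, hJ⟩ := Ideal.dvd_iff_le.2 ((Ideal.span_singleton_le_iff_mem P).2 hG1)
        have hJP : ¬ P ∣ J := fun ⟨J', hJ'⟩ => hne ((Ideal.span_singleton_le_iff_mem _).1
          (Ideal.dvd_iff_le.1 ⟨J', by rw [hJ, hJ', pow_two, mul_assoc]⟩))
        rw [hJ, mul_assoc] at h3
        have h4 : P * P ^ (k + 1) ∣ P * (J * Ideal.span {aeval θ G ^ k}) := by
          rw [← pow_succ']
          exact Ideal.dvd_iff_le.2 h3
        exact (Ideal.span_singleton_le_iff_mem _).1 (Ideal.dvd_iff_le.1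
          ((Ideal.prime_of_isPrime hP0 hP).pow_dvd_of_dvd_mul_left (k + 1) hJP
            ((mul_dvd_mul_iff_left (show P ≠ 0 from hP0)).1 h4)))
      exact ih.2 h2
  intro k
  induction k with
  | zero => exact fun x => ⟨0, by rw [pow_zero, Ideal.one_eq_top]; trivial⟩
  | succ k ih =>
    intro x
    obtain ⟨F, hF⟩ := ih x
    obtain ⟨d, r, hr, hd⟩ := Ideal.exists_mul_add_mem_pow_succ hP0 _ _ (hpow k).1 (hpow k).2 hF
    obtain ⟨H, hH⟩ := h1 d
    refine ⟨F + H * G ^ k, ?_⟩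
    rw [map_add, map_mul, map_pow]
    have e : x - (aeval θ F + aeval θ H * aeval θ G ^ k) =
        (d - aeval θ H) * aeval θ G ^ k + r := by linear_combination (-1 : 𝓞 K) * hd
    rw [e]
    refine add_mem ?_ hr
    rw [pow_succ']
    exact Ideal.mul_mem_mul hH (hpow k).1

/-- **Converse**: enough polynomials give a covering `θ`. -/
theorem exists_covers (hle : ∀ f, (primesDeg K p f).ncard ≤ (irredDeg p f).ncard) :
    ∃ θ : 𝓞 K, Covers (Ideal.span {(p : 𝓞 K)}) θ := by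
  classical
  have hp : p.Prime := Fact.out
  have hsp : Ideal.span {(p : 𝓞 K)} ≠ ⊥ := by simp [hp.ne_zero]
  have hT : {P : Ideal (𝓞 K) | P.IsPrime ∧ (p : 𝓞 K) ∈ P}.Finite :=
    (Ideal.finite_setOf_absNorm_le (S := 𝓞 K) (Ideal.absNorm (Ideal.span {(p : 𝓞 K)}))).subset
      fun P hP => Nat.le_of_dvd (Nat.pos_of_ne_zero (Ideal.absNorm_eq_zero_iff.not.2 hsp))
        (Ideal.absNorm_dvd_absNorm_of_le ((Ideal.span_singleton_le_iff_mem P).2 hP.2))
  set T := hT.toFinset
  have hmemT : ∀ {P}, P ∈ T ↔ P.IsPrime ∧ (p : 𝓞 K) ∈ P := fun {P} => hT.mem_toFinset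
  -- distinct polynomials
  have hchoice : ∀ f, ∃ φ : primesDeg K p f → irredDeg p f, Function.Injective φ := fun f => by
    have := (finite_primesDeg (K := K) hp f).fintype
    have := (finite_irredDeg (p := p) f).fintype
    obtain ⟨φ⟩ := Function.Embedding.nonempty_of_card_le (α := primesDeg K p f) (β := irredDeg p f)
      (by rw [← Nat.card_eq_fintype_card, ← Nat.card_eq_fintype_card, Nat.card_coe_set_eq,
        Nat.card_coe_set_eq]; exact hle f)
    exact ⟨φ, φ.injective⟩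
  choose φ hφ using hchoice
  choose deg hdeg using fun P : T => exists_deg hp (hmemT.1 P.2).1 (hmemT.1 P.2).2
  let g : T → (ZMod p)[X] := fun P => (φ (deg P) ⟨P.1, hdeg P⟩).1
  have hg : ∀ P, g P ∈ irredDeg p (deg P) := fun P => (φ (deg P) ⟨P.1, hdeg P⟩).2
  have hginj : Function.Injective g := fun P Q h => by
    have hd : deg P = deg Q := by rw [← (hg P).2.2, ← (hg Q).2.2, h]
    have key : ∀ (f₁ f₂ : ℕ) (a : primesDeg K p f₁) (b : primesDeg K p f₂), f₁ = f₂ →
        (φ f₁ a).1 = (φ f₂ b).1 → a.1 = b.1 := by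
      rintro f₁ f₂ a b rfl hab
      exact congrArg Subtype.val (hφ f₁ (Subtype.ext hab))
    exact Subtype.ext (key _ _ ⟨P.1, hdeg P⟩ ⟨Q.1, hdeg Q⟩ hd h)
  choose G hG using fun P : T => exists_lift (g P)
  choose a ha using fun P : T => exists_local (hdeg P) (hg P) (hG P) (hmemT.1 P.2).2
  obtain ⟨θ, hθ⟩ := IsDedekindDomain.exists_forall_sub_mem_ideal (s := T) (fun P => P) (fun _ => 2)
    (fun P hP => Ideal.prime_of_isPrime (ne_bot_of_mem hp (hmemT.1 hP).2) (hmemT.1 hP).1)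
    (fun _ _ _ _ hne => hne) a
  refine ⟨θ, ?_⟩
  have hcongr : ∀ (P : T) (R : ℤ[X]), aeval θ R - aeval (a P) R ∈ P.1 ^ 2 := fun P R => by
    obtain ⟨c, hc⟩ := sub_dvd_eval_sub θ (a P) (R.map (algebraMap ℤ (𝓞 K)))
    rw [eval_map_algebraMap, eval_map_algebraMap] at hc
    rw [hc]
    exact Ideal.mul_mem_right _ _ (hθ P.1 P.2)
  have hev : ∀ (P : T) r, evMod P.1 (hmemT.1 P.2).2 θ r = evMod P.1 (hmemT.1 P.2).2 (a P) r := by
    intro P r
    obtain ⟨R, rfl⟩ := exists_lift r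
    rw [evMod_map, evMod_map, Ideal.Quotient.eq]
    exact Ideal.pow_le_self two_ne_zero (hcongr P R)
  have hcov : ∀ (P : T) k, Covers (P.1 ^ k) θ := fun P => by
    have := (hmemT.1 P.2).1
    refine covers_pow (p := p) (hmemT.1 P.2).2 (G := G P) (fun y => ?_) ?_ fun h2 => (ha P).2.2 ?_
    · obtain ⟨r, hr⟩ := (ha P).1 y
      exact ⟨r, (hev P r).trans hr⟩
    · rw [← Ideal.Quotient.eq_zero_iff_mem, ← evMod_map P.1 (hmemT.1 P.2).2, hev, hG]
      exact (ha P).2.1
    · simpa using sub_mem h2 (hcongr P (G P))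
  have hGP : ∀ P : T, aeval θ (G P) ∈ P.1 := fun P => by
    rw [← Ideal.Quotient.eq_zero_iff_mem, ← evMod_map P.1 (hmemT.1 P.2).2, hev, hG]
    exact (ha P).2.1
  have hGQ : ∀ P Q : T, P ≠ Q → aeval θ (G Q) ∉ P.1 := fun P Q hne hm => by
    have hPd := hdeg P
    obtain ⟨g', hg', hker⟩ := exists_irred (θ := θ) hPd (hmemT.1 P.2).2 (fun y => by
      obtain ⟨r, hr⟩ := (ha P).1 y
      exact ⟨r, (hev P r).trans hr⟩)
    have hmem : ∀ Q : T, aeval θ (G Q) ∈ P.1 → g Q = g' := fun Q hQ => by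
      have h1 : g Q ∈ RingHom.ker (evMod P.1 (hmemT.1 P.2).2 θ) := by
        rw [RingHom.mem_ker, ← hG Q, evMod_map, Ideal.Quotient.eq_zero_iff_mem]
        exact hQ
      rw [hker, Ideal.mem_span_singleton] at h1
      exact (eq_of_monic_of_associated hg'.1 (hg Q).1
        (hg'.2.1.associated_of_dvd (hg Q).2.1 h1)).symm
    exact hne (hginj ((hmem P (hGP P)).trans (hmem Q hm).symm))
  -- a power of the product of the primes lies in `(p)`
  obtain ⟨N, hN⟩ : ∃ N, (∏ P ∈ T, P) ^ N ≤ Ideal.span {(p : 𝓞 K)} := by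
    obtain ⟨N, hN⟩ := Ideal.exists_radical_pow_le_of_fg (Ideal.span {(p : 𝓞 K)})
      (IsNoetherian.noetherian _)
    refine ⟨N, (Ideal.pow_right_mono ?_ N).trans hN⟩
    rw [Ideal.radical_eq_sInf]
    refine le_sInf fun J ⟨hJ1, hJ2⟩ => ?_
    exact Ideal.le_of_dvd (Finset.dvd_prod_of_mem _
      (hmemT.2 ⟨hJ2, hJ1 (Ideal.mem_span_singleton_self _)⟩))
  intro x
  let E : T → ℤ[X] := fun P => ∏ Q ∈ Finset.univ.erase P, G Q ^ N
  have hinv : ∀ P : T, ∃ s : 𝓞 K, s * aeval θ (E P) - 1 ∈ P.1 ^ N := fun P => by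
    have hne : aeval θ (E P) ∉ P.1 := fun hm => by
      simp only [E, map_prod, map_pow] at hm
      obtain ⟨Q, hQ, hQm⟩ := ((hmemT.1 P.2).1.prod_mem_iff).1 hm
      exact hGQ P Q (Finset.ne_of_mem_erase hQ).symm ((hmemT.1 P.2).1.mem_of_pow_mem _ hQm)
    have hmax := (hmemT.1 P.2).1.isMaximal (ne_bot_of_mem hp (hmemT.1 P.2).2)
    obtain ⟨s, i, hi, hsi⟩ := hmax.exists_inv hne
    have h2 : i ^ N ∈ P.1 ^ N := Ideal.pow_mem_pow hi N
    obtain ⟨c, hc⟩ := sub_dvd_pow_sub_pow (1 : 𝓞 K) i N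
    refine ⟨c * s, ?_⟩
    have e : c * s * aeval θ (E P) - 1 = -(i ^ N) := by
      rw [one_pow] at hc
      linear_combination c * hsi - hc
    rw [e]
    exact neg_mem h2
  choose s hs using hinv
  choose F hF using fun P : T => hcov P N (s P * x)
  refine ⟨∑ P : T, E P * F P, hN ?_⟩
  rw [← Finset.prod_pow, ← IsDedekindDomain.inf_pow_eq_prod_of_prime T (fun P => P) (fun _ => N)
    (fun P hP => Ideal.prime_of_isPrime (ne_bot_of_mem hp (hmemT.1 hP).2) (hmemT.1 hP).1)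
    (fun _ _ _ _ hne => hne), Submodule.mem_finsetInf]
  intro P hP
  rw [map_sum, ← Finset.add_sum_erase Finset.univ _ (Finset.mem_univ ⟨P, hP⟩), ← sub_sub]
  refine sub_mem ?_ (Submodule.sum_mem _ fun Q hQ => ?_)
  · rw [map_mul]
    have e : x - aeval θ (E ⟨P, hP⟩) * aeval θ (F ⟨P, hP⟩) =
        aeval θ (E ⟨P, hP⟩) * (s ⟨P, hP⟩ * x - aeval θ (F ⟨P, hP⟩)) -
          x * (s ⟨P, hP⟩ * aeval θ (E ⟨P, hP⟩) - 1) := by ring
    rw [e]
    exact sub_mem (Ideal.mul_mem_left _ _ (hF ⟨P, hP⟩)) (Ideal.mul_mem_left _ _ (hs ⟨P, hP⟩))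
  · rw [map_mul]
    refine Ideal.mul_mem_right _ _ ?_
    simp only [E, map_prod, map_pow]
    rw [← Finset.mul_prod_erase _ _ (Finset.mem_erase.2 ⟨(Finset.ne_of_mem_erase hQ).symm,
      Finset.mem_univ (⟨P, hP⟩ : T)⟩)]
    exact Ideal.mul_mem_right _ _ (Ideal.pow_mem_pow (hGP ⟨P, hP⟩) N)

/-- **Dedekind and Hensel.** -/
theorem forall_dvd_index_iff :
    (∀ θ : 𝓞 K, p ∣ (Algebra.adjoin ℤ {θ}).toSubring.toAddSubgroup.index) ↔
      ∃ f, (irredDeg p f).ncard < (primesDeg K p f).ncard := by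
  have hp : p.Prime := Fact.out
  constructor
  · intro h
    by_contra hcon
    push Not at hcon
    obtain ⟨θ, hθ⟩ := exists_covers hcon
    exact (not_dvd_index_iff hp θ).2 hθ (h θ)
  · rintro ⟨f, hf⟩ θ
    by_contra hd
    exact (ncard_le_of_covers ((not_dvd_index_iff hp θ).1 hd) f).not_gt hf

end FA.Monogenic
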