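import Fermat.Agent.Monogenic.Count
import Fermat.Agent.ClassField.Artin
import Mathlib.NumberTheory.PrimesCongruentOne

/-!
# Cyclic fields in which two splits completely

A character of order `n` of conductor `q₁ q₂` trivial at `2` is found by pigeonhole among the
primes congruent to `1` modulo `n`; its field has `n` primes of norm `2`.
-/

set_option autoImplicit false
set_option linter.unusedSectionVars false
set_option linter.style.haveILetI false

noncomputable section

open NumberField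

namespace FA.Monogenic

open FA.ClassField

/-- **The field of a character trivial at `2`.** -/
theorem exists_field_char {n N : ℕ} [NeZero n] [NeZero N] (h2 : (2 : ℕ).Coprime N)
    (χ : (ZMod N)ˣ →* Multiplicative (ZMod n)) (hχ : Function.Surjective χ)
    (hχ2 : χ (ZMod.unitOfCoprime 2 h2) = 1) :
    ∃ (L : Type) (_ : Field L) (_ : NumberField L),
      IsGalois ℚ L ∧ IsCyclic (L ≃ₐ[ℚ] L) ∧ Module.finrank ℚ L = n ∧
        n ≤ (primesDeg L 2 1).ncard ∧
        ∀ (q m : ℕ), q.Prime → N = q * m → ¬ q ∣ m →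
          (∀ hm : m ∣ N, ∃ u ∈ (ZMod.unitsMap hm).ker, χ u ≠ 1) → (q : ℤ) ∣ discr L := by
  classical
  haveI : NeZero (N : ℚ) := ⟨Nat.cast_ne_zero.mpr (NeZero.ne N)⟩
  haveI : IsCyclotomicExtension {N} ℚ (CyclotomicField N ℚ) :=
    CyclotomicField.isCyclotomicExtension N ℚ
  haveI : IsAbelianGalois ℚ (CyclotomicField N ℚ) :=
    IsCyclotomicExtension.isAbelianGalois {N} ℚ (CyclotomicField N ℚ)
  let e := IsCyclotomicExtension.Rat.galEquivZMod N (CyclotomicField N ℚ)
  let H : Subgroup Gal(CyclotomicField N ℚ/ℚ) := χ.ker.comap e.toMonoidHom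
  let F := IntermediateField.fixedField H
  haveI : IsAbelianGalois ℚ F := IsAbelianGalois.tower_bot ℚ F (CyclotomicField N ℚ)
  have hker : normGroup N (CyclotomicField N ℚ) F = χ.ker := by
    ext u
    obtain ⟨σ, rfl⟩ := e.surjective u
    rw [galEquiv_mem_normGroup, IntermediateField.fixingSubgroup_fixedField]
    rfl
  haveI : NumberField F := { }
  haveI : IsGalois ℚ F := inferInstance
  have hart : (artHom N (CyclotomicField N ℚ) F).ker = χ.ker :=
    (ker_artHom N (CyclotomicField N ℚ) F).trans hker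
  have eG : Gal(F/ℚ) ≃* Multiplicative (ZMod n) :=
    (QuotientGroup.quotientKerEquivOfSurjective _
      (artHom_surjective N (CyclotomicField N ℚ) F)).symm.trans
      ((QuotientGroup.quotientMulEquivOfEq hart).trans
        (QuotientGroup.quotientKerEquivOfSurjective χ hχ))
  have hdeg : Module.finrank ℚ F = n := by
    rw [← IsGalois.card_aut_eq_finrank, Nat.card_congr eG.toEquiv,
      Nat.card_congr Multiplicative.toAdd, Nat.card_zmod]
  refine ⟨F, inferInstance, inferInstance, inferInstance, eG.isCyclic.2 inferInstance, hdeg, ?_,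
    fun q m hq hqm hm hu => ?_⟩
  · haveI := Fact.mk Nat.prime_two
    have h1 : artHom N (CyclotomicField N ℚ) F (ZMod.unitOfCoprime 2 h2) = 1 := by
      rw [← MonoidHom.mem_ker, hart]; exact hχ2
    obtain ⟨hf, hg⟩ := card_quotient_norm N (CyclotomicField N ℚ) F 2 h2
    rw [h1, orderOf_one] at hf hg
    rw [mul_one, hdeg] at hg
    rw [← hg]
    refine Set.ncard_le_ncard ?_ (finite_primesDeg Nat.prime_two 1)
    rintro P ⟨hP, hP2⟩
    refine ⟨hP, ?_⟩
    haveI := hP2
    haveI : (Ideal.span {((2 : ℕ) : ℤ)}).IsMaximal := Ideal.IsPrime.isMaximal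
      ((Ideal.span_singleton_prime (by norm_num)).mpr
        (Nat.prime_iff_prime_int.mp Nat.prime_two)) (by simp)
    haveI := hP
    haveI : P.IsMaximal := .of_liesOver_isMaximal P (Ideal.span {((2 : ℕ) : ℤ)})
    rw [← Ideal.pow_inertiaDeg 2 P,
      ← Ideal.inertiaDegIn_eq_inertiaDeg (Ideal.span {((2 : ℕ) : ℤ)}) P Gal(F/ℚ), hf]
  · haveI := Fact.mk hq
    by_contra hnd
    have hn : N = q ^ 1 * m := by rw [pow_one, hqm]
    have hle := (not_dvd_discr_iff N (CyclotomicField N ℚ) hn hm F).1 hnd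
    rw [hker] at hle
    obtain ⟨u, hu1, hu2⟩ := hu (hqm ▸ dvd_mul_left m q)
    exact hu2 (hle hu1)

/-- A character of order `n` modulo a prime congruent to `1`. -/
theorem exists_char {n q : ℕ} [NeZero n] (hq : q.Prime) (h : n ∣ q - 1) :
    ∃ (ψ : (ZMod q)ˣ →* Multiplicative (ZMod n)) (g : (ZMod q)ˣ),
      ψ g = Multiplicative.ofAdd 1 := by
  haveI := Fact.mk hq
  obtain ⟨g, hg⟩ := IsCyclic.exists_generator (α := (ZMod q)ˣ)
  have ho : orderOf (Multiplicative.ofAdd (1 : ZMod n)) ∣ orderOf g := by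
    rw [orderOf_ofAdd_eq_addOrderOf, ZMod.addOrderOf_one,
      orderOf_eq_card_of_forall_mem_zpowers hg, Nat.card_eq_fintype_card, ZMod.card_units]
    exact h
  exact ⟨monoidHomOfForallMemZpowers hg ho, g, monoidHomOfForallMemZpowers_apply_gen hg ho⟩

/-- **Cyclic fields of degree `n` with `n` primes of norm `2` and a large ramified prime.** -/
theorem exists_field_two_split {n : ℕ} (hn : 2 ≤ n) (B : ℕ) :
    ∃ (L : Type) (_ : Field L) (_ : NumberField L),
      IsGalois ℚ L ∧ IsCyclic (L ≃ₐ[ℚ] L) ∧ Module.finrank ℚ L = n ∧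
        n ≤ (primesDeg L 2 1).ncard ∧ ∃ q, q.Prime ∧ B < q ∧ (q : ℤ) ∣ discr L := by
  classical
  haveI : NeZero n := ⟨by omega⟩
  haveI : Fact (1 < n) := ⟨by omega⟩
  have hinf := (Nat.infinite_setOfPred_prime_modEq_one (NeZero.ne n)).sdiff
    (Set.finite_le_nat (max B 2))
  have := hinf.to_subtype
  have hp : ∀ q : ↥({p : ℕ | p.Prime ∧ p ≡ 1 [MOD n]} \ {i | i ≤ max B 2}),
      q.1.Prime ∧ n ∣ q.1 - 1 ∧ B < q.1 ∧ (2 : ℕ).Coprime q.1 := fun q => by
    obtain ⟨⟨h1, h2⟩, h3⟩ := q.2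
    have h4 : max B 2 < q.1 := not_le.1 h3
    refine ⟨h1, (Nat.modEq_iff_dvd' h1.one_le).1 h2.symm, lt_of_le_of_lt (le_max_left _ _) h4, ?_⟩
    exact (Nat.coprime_primes Nat.prime_two h1).2 (lt_of_le_of_lt (le_max_right _ _) h4).ne
  choose ψ g hψ using fun q => exists_char (n := n) (hp q).1 (hp q).2.1
  obtain ⟨a, b, hab, hval⟩ := Finite.exists_ne_map_eq_of_infinite
    fun q => ψ q (ZMod.unitOfCoprime 2 (hp q).2.2.2)
  have hne : a.1 ≠ b.1 := fun h => hab (Subtype.ext h)
  haveI : NeZero (a.1 * b.1) := ⟨mul_ne_zero (hp a).1.ne_zero (hp b).1.ne_zero⟩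
  have hco : (2 : ℕ).Coprime (a.1 * b.1) := (hp a).2.2.2.mul_right (hp b).2.2.2
  let χ : (ZMod (a.1 * b.1))ˣ →* Multiplicative (ZMod n) :=
    (ψ a).comp (ZMod.unitsMap (dvd_mul_right a.1 b.1)) /
      (ψ b).comp (ZMod.unitsMap (dvd_mul_left b.1 a.1))
  have hloc : ∀ hm : b.1 ∣ a.1 * b.1, ∃ u ∈ (ZMod.unitsMap hm).ker,
      χ u = Multiplicative.ofAdd 1 := fun hm => by
    haveI := Fact.mk (hp a).1
    haveI := Fact.mk (hp b).1
    obtain ⟨c, hc1, hc2⟩ := Nat.chineseRemainder ((Nat.coprime_primes (hp a).1 (hp b).1).2 hne)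
      ((g a : ZMod a.1)).val 1
    have hca : (c : ZMod a.1) = (g a : ZMod a.1) := by
      rw [(ZMod.natCast_eq_natCast_iff _ _ _).2 hc1, ZMod.natCast_zmod_val]
    have hcb : (c : ZMod b.1) = 1 := by
      rw [(ZMod.natCast_eq_natCast_iff _ _ _).2 hc2, Nat.cast_one]
    have hcN : c.Coprime (a.1 * b.1) :=
      ((ZMod.isUnit_iff_coprime c a.1).1 (hca ▸ (g a).isUnit)).mul_right
        ((ZMod.isUnit_iff_coprime c b.1).1 (hcb ▸ isUnit_one))
    have ha' : ZMod.unitsMap (dvd_mul_right a.1 b.1) (ZMod.unitOfCoprime c hcN) = g a :=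
      Units.ext (by
        simp only [ZMod.unitsMap_val, ZMod.coe_unitOfCoprime]
        rw [ZMod.cast_natCast (dvd_mul_right a.1 b.1), hca])
    have hb' : ZMod.unitsMap (dvd_mul_left b.1 a.1) (ZMod.unitOfCoprime c hcN) = 1 :=
      Units.ext (by
        simp only [ZMod.unitsMap_val, ZMod.coe_unitOfCoprime, Units.val_one]
        rw [ZMod.cast_natCast (dvd_mul_left b.1 a.1), hcb])
    refine ⟨_, MonoidHom.mem_ker.2 hb', ?_⟩
    simp only [χ, MonoidHom.div_apply, MonoidHom.comp_apply, ha', hb', hψ, map_one, div_one]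
  have hsurj : Function.Surjective χ := fun y => by
    obtain ⟨u, -, hu⟩ := hloc (dvd_mul_left _ _)
    refine ⟨u ^ (Multiplicative.toAdd y).val, ?_⟩
    rw [map_pow, hu]
    exact Multiplicative.toAdd.injective (by simp)
  have hχ2 : χ (ZMod.unitOfCoprime 2 hco) = 1 := by
    have e : ∀ (m : ℕ) (hm : m ∣ a.1 * b.1) (hc : (2 : ℕ).Coprime m),
        ZMod.unitsMap hm (ZMod.unitOfCoprime 2 hco) = ZMod.unitOfCoprime 2 hc := fun m hm hc =>
      Units.ext (by simp only [ZMod.unitsMap_val, ZMod.coe_unitOfCoprime]; exact ZMod.cast_natCast hm 2)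
    simp only [χ, MonoidHom.div_apply, MonoidHom.comp_apply]
    rw [e _ _ (hp a).2.2.2, e _ _ (hp b).2.2.2, div_eq_one]
    exact hval
  obtain ⟨L, _, _, hG, hC, hd, hs, hq⟩ := exists_field_char hco χ hsurj hχ2
  refine ⟨L, inferInstance, inferInstance, hG, hC, hd, hs, a.1, (hp a).1, (hp a).2.2.1,
    hq a.1 b.1 (hp a).1 rfl
      (fun h => hne ((Nat.prime_dvd_prime_iff_eq (hp a).1 (hp b).1).1 h)) fun hm => ?_⟩
  obtain ⟨u, hu, hχu⟩ := hloc hm
  exact ⟨u, hu, by rw [hχu, Ne, ofAdd_eq_one]; exact one_ne_zero⟩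

/-- **Dedekind's cubic field**, of conductor `31`. -/
theorem exists_field_thirtyOne :
    ∃ (L : Type) (_ : Field L) (_ : NumberField L),
      IsGalois ℚ L ∧ Module.finrank ℚ L = 3 ∧ 3 ≤ (primesDeg L 2 1).ncard ∧
        (31 : ℤ) ∣ discr L := by
  haveI : Fact (1 < 3) := ⟨by norm_num⟩
  have h31 : (31 : ℕ).Prime := by norm_num
  haveI := Fact.mk h31
  obtain ⟨ψ, g, hψ⟩ := exists_char (n := 3) h31 (by norm_num)
  have hco : (2 : ℕ).Coprime 31 := by norm_num
  have h2 : ψ (ZMod.unitOfCoprime 2 hco) = 1 := by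
    have hcube : (ZMod.unitOfCoprime 2 hco) = (ZMod.unitOfCoprime 4 (by norm_num)) ^ 3 :=
      Units.ext (by simp only [ZMod.coe_unitOfCoprime, Units.val_pow_eq_pow_val]; decide)
    rw [hcube, map_pow]
    refine Multiplicative.toAdd.injective ?_
    rw [toAdd_pow, nsmul_eq_mul, toAdd_one, ZMod.natCast_self, zero_mul]
  have hsurj : Function.Surjective ψ := fun y => by
    refine ⟨g ^ (Multiplicative.toAdd y).val, ?_⟩
    rw [map_pow, hψ]
    exact Multiplicative.toAdd.injective (by simp)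
  obtain ⟨L, _, _, hG, -, hd, hs, hq⟩ := exists_field_char hco ψ hsurj h2
  refine ⟨L, inferInstance, inferInstance, hG, hd, hs,
    hq 31 1 h31 rfl (by norm_num) fun hm => ⟨g, ?_, ?_⟩⟩
  · rw [MonoidHom.mem_ker]
    exact Subsingleton.elim _ _
  · rw [hψ, Ne, ofAdd_eq_one]
    exact one_ne_zero

end FA.Monogenic
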