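import Mathlib

/-!
# Polynomials modulo a prime and the index of a power basis

For `θ` in the ring of integers and a prime `p`, `p` does not divide the index of `ℤ[θ]` iff the
polynomials over `𝔽_p` map onto the integers modulo `p` at `θ`.
-/

set_option autoImplicit false

noncomputable section

open NumberField Polynomial

namespace FA.Monogenic

variable {K : Type*} [Field K] [NumberField K] {p : ℕ}

/-- The prime field in a quotient by an ideal containing `p`. -/
def baseHom (I : Ideal (𝓞 K)) (h : (p : 𝓞 K) ∈ I) : ZMod p →+* 𝓞 K ⧸ I :=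
  (Ideal.Quotient.lift (Ideal.span {(p : ℤ)}) (algebraMap ℤ (𝓞 K ⧸ I)) fun x hx => by
    obtain ⟨y, rfl⟩ := Ideal.mem_span_singleton.1 hx
    rw [map_mul, map_natCast, ← map_natCast (Ideal.Quotient.mk I),
      Ideal.Quotient.eq_zero_iff_mem.2 h, zero_mul]).comp
    (Int.quotientSpanNatEquivZMod p).symm.toRingHom

/-- The value at `θ` of a polynomial over the prime field. -/
def evMod (I : Ideal (𝓞 K)) (h : (p : 𝓞 K) ∈ I) (θ : 𝓞 K) : (ZMod p)[X] →+* 𝓞 K ⧸ I :=
  eval₂RingHom (baseHom I h) (Ideal.Quotient.mk I θ)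

theorem evMod_map (I : Ideal (𝓞 K)) (h : (p : 𝓞 K) ∈ I) (θ : 𝓞 K) (P : ℤ[X]) :
    evMod I h θ (P.map (Int.castRingHom (ZMod p))) = Ideal.Quotient.mk I (aeval θ P) := by
  refine DFunLike.congr_fun (Polynomial.ringHom_ext'
    (f := (evMod I h θ).comp (mapRingHom (Int.castRingHom (ZMod p))))
    (g := (Ideal.Quotient.mk I).comp (aeval θ).toRingHom) (RingHom.ext_int _ _) ?_) P
  simp [evMod]

theorem exists_lift (g : (ZMod p)[X]) : ∃ P : ℤ[X], P.map (Int.castRingHom (ZMod p)) = g :=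
  map_surjective _ ZMod.intCast_surjective g

/-- The polynomials at `θ` cover the integers modulo `I`. -/
def Covers (I : Ideal (𝓞 K)) (θ : 𝓞 K) : Prop := ∀ x, ∃ P : ℤ[X], x - aeval θ P ∈ I

theorem Covers.mono {I J : Ideal (𝓞 K)} {θ : 𝓞 K} (h : Covers I θ) (hIJ : I ≤ J) : Covers J θ :=
  fun x => (h x).imp fun _ hP => hIJ hP

theorem Covers.surjective {I : Ideal (𝓞 K)} {h : (p : 𝓞 K) ∈ I} {θ : 𝓞 K} (hc : Covers I θ) :
    Function.Surjective (evMod I h θ) := fun y => by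
  obtain ⟨x, rfl⟩ := Ideal.Quotient.mk_surjective y
  obtain ⟨P, hP⟩ := hc x
  exact ⟨_, (evMod_map I h θ P).trans (Ideal.Quotient.eq.2 hP).symm⟩

theorem mem_adjoin_iff (θ x : 𝓞 K) :
    x ∈ (Algebra.adjoin ℤ {θ}).toSubring.toAddSubgroup ↔ ∃ P : ℤ[X], aeval θ P = x := by
  show x ∈ Algebra.adjoin ℤ {θ} ↔ _
  rw [Algebra.adjoin_singleton_eq_range_aeval]
  exact AlgHom.mem_range _

/-- **`p` does not divide the index of `ℤ[θ]` iff `ℤ[θ]` covers the integers modulo `p`.** -/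
theorem not_dvd_index_iff (hp : p.Prime) (θ : 𝓞 K) :
    ¬ p ∣ (Algebra.adjoin ℤ {θ}).toSubring.toAddSubgroup.index ↔
      Covers (Ideal.span {(p : 𝓞 K)}) θ := by
  set A := (Algebra.adjoin ℤ {θ}).toSubring.toAddSubgroup
  constructor
  · intro hd x
    obtain ⟨u, v, huv⟩ := Int.isCoprime_iff_gcd_eq_one.2
      (show Int.gcd (A.index : ℤ) (p : ℤ) = 1 from ((hp.coprime_iff_not_dvd.2 hd).symm :))
    obtain ⟨P, hP⟩ := (mem_adjoin_iff θ _).1 (AddSubgroup.nsmul_index_mem A x)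
    refine ⟨C u * P, Ideal.mem_span_singleton'.2 ⟨(v : 𝓞 K) * x, ?_⟩⟩
    rw [map_mul, aeval_C, hP, nsmul_eq_mul]
    have huv' : (u : 𝓞 K) * (A.index : 𝓞 K) + (v : 𝓞 K) * (p : 𝓞 K) = 1 := by
      exact_mod_cast congrArg (Int.cast : ℤ → 𝓞 K) huv
    simp only [algebraMap_int_eq, eq_intCast]
    linear_combination x * huv'
  · intro hc hd
    set N : Submodule ℤ (𝓞 K ⧸ A.toIntSubmodule) := ⊤
    have hle : N ≤ Ideal.span {(p : ℤ)} • N := fun y _ => by
      obtain ⟨x, rfl⟩ := Submodule.Quotient.mk_surjective _ y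
      obtain ⟨P, hP⟩ := hc x
      obtain ⟨z, hz⟩ := Ideal.mem_span_singleton'.1 hP
      have he : Submodule.Quotient.mk (p := A.toIntSubmodule) x =
          (p : ℤ) • Submodule.Quotient.mk z := by
        rw [← Submodule.Quotient.mk_smul, Submodule.Quotient.eq, zsmul_eq_mul, Int.cast_natCast,
          mul_comm, hz, sub_sub_cancel]
        exact (mem_adjoin_iff θ _).2 ⟨P, rfl⟩
      rw [he]
      exact Submodule.smul_mem_smul (Ideal.mem_span_singleton_self _) trivial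
    obtain ⟨r, hr, hr0⟩ := Submodule.exists_sub_one_mem_and_smul_eq_zero_of_fg_of_le_smul
      (Ideal.span {(p : ℤ)}) N Module.Finite.fg_top hle
    have hpr : ¬ (p : ℤ) ∣ r := fun h => (Nat.prime_iff_prime_int.1 hp).not_unit
      (isUnit_of_dvd_one (by simpa using dvd_sub h (Ideal.mem_span_singleton.1 hr)))
    have hA : A.index = Nat.card (𝓞 K ⧸ A.toIntSubmodule) := rfl
    have : Finite (𝓞 K ⧸ A.toIntSubmodule) := by
      refine Module.finite_of_fg_torsion _ fun {y} => ⟨⟨r, mem_nonZeroDivisors_iff_ne_zero.2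
        fun h => hpr (h ▸ dvd_zero _)⟩, ?_⟩
      exact hr0 y trivial
    have := Fact.mk hp
    obtain ⟨y, hy⟩ := exists_prime_addOrderOf_dvd_card' p (G := 𝓞 K ⧸ A.toIntSubmodule) (hA ▸ hd)
    refine hpr ?_
    rw [← hy, addOrderOf_dvd_iff_zsmul_eq_zero]
    exact hr0 y trivial

end FA.Monogenic
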